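import Fermat.Agent.S16.CardAlgebra
import Fermat.Prelude.Thm_CongruenceSubgroup_one_mem_strictPeriods_Gamma0
import Fermat.Prelude.Thm_ModularFormClass_qCoeff_heckeT
import Fermat.Prelude.Thm_ModularFormClass_qCoeff_heckeU

/-!
# S16, layer R, task S16-R1 (owner helper187): `q`-coefficients of cusp forms on `Γ₀(p)`

Linearity of `qCoeff`, membership in the integral lattice, the `q`-expansion principle, and the
effect of the generators of the polynomial Hecke ring on `q`-coefficients.
-/

set_option autoImplicit false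
set_option linter.unusedSectionVars false

noncomputable section

namespace Fermat.Agent.S16

open UpperHalfPlane ModularForm CongruenceSubgroup PowerSeries ModularCurve CuspForm
open scoped MatrixGroups ModularForm Manifold

variable (p : ℕ) [Fact p.Prime]

theorem qCoeff_add (f g : CuspForm (Gamma0 p) 2) (n : ℕ) :
    ModularFormClass.qCoeff (f + g : CuspForm (Gamma0 p) 2) n =
      ModularFormClass.qCoeff f n + ModularFormClass.qCoeff g n := by
  unfold ModularFormClass.qCoeff
  rw [FunLike.coe_add, ModularForm.qExpansion_add one_pos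
    (CongruenceSubgroup.one_mem_strictPeriods_Gamma0 p) f g, map_add]

theorem qCoeff_smul (c : ℂ) (f : CuspForm (Gamma0 p) 2) (n : ℕ) :
    ModularFormClass.qCoeff (c • f : CuspForm (Gamma0 p) 2) n = c * ModularFormClass.qCoeff f n := by
  unfold ModularFormClass.qCoeff
  rw [FunLike.coe_smul, ModularForm.qExpansion_smul one_pos
    (CongruenceSubgroup.one_mem_strictPeriods_Gamma0 p) c f, PowerSeries.coeff_smul, smul_eq_mul]

theorem qCoeff_zsmul (c : ℤ) (f : CuspForm (Gamma0 p) 2) (n : ℕ) :
    ModularFormClass.qCoeff (c • f : CuspForm (Gamma0 p) 2) n = c * ModularFormClass.qCoeff f n := by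
  rw [← qCoeff_smul p (c : ℂ) f n, Int.cast_smul_eq_zsmul]

theorem qCoeff_zero_eq (f : CuspForm (Gamma0 p) 2) : ModularFormClass.qCoeff f 0 = 0 :=
  CuspFormClass.qExpansion_coeff_zero (h := 1) f one_pos
    (CongruenceSubgroup.one_mem_strictPeriods_Gamma0 p)

theorem mem_intLattice_iff (f : CuspForm (Gamma0 p) 2) :
    f ∈ intLattice p 2 ↔ ∀ n : ℕ, ∃ m : ℤ, ModularFormClass.qCoeff f n = (m : ℂ) := by
  constructor
  · intro hf
    unfold CuspForm.intLattice at hf
    induction hf using Submodule.span_induction with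
    | mem x hx => exact hx
    | zero =>
      intro n
      refine ⟨0, ?_⟩
      have h := qCoeff_smul p 0 (0 : CuspForm (Gamma0 p) 2) n
      rw [zero_smul, zero_mul] at h
      rw [h, Int.cast_zero]
    | add x y _ _ hx hy =>
      intro n
      obtain ⟨a, ha⟩ := hx n
      obtain ⟨b, hb⟩ := hy n
      exact ⟨a + b, by rw [qCoeff_add, ha, hb, Int.cast_add]⟩
    | smul c x _ hx =>
      intro n
      obtain ⟨a, ha⟩ := hx n
      exact ⟨c * a, by rw [qCoeff_zsmul, ha, Int.cast_mul]⟩
  · intro h
    exact Submodule.subset_span h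

theorem eq_zero_of_qCoeff (f : CuspForm (Gamma0 p) 2)
    (h : ∀ n, 1 ≤ n → ModularFormClass.qCoeff f n = 0) : f = 0 := by
  have hΓ := CongruenceSubgroup.one_mem_strictPeriods_Gamma0 p
  have : Fact (IsCusp OnePoint.infty (Subgroup.map (Matrix.SpecialLinearGroup.mapGL ℝ) (Gamma0 p))) :=
    ⟨Subgroup.isCusp_of_mem_strictPeriods one_pos hΓ⟩
  have h0 : qExpansion 1 f = 0 := by
    ext n
    rcases Nat.eq_zero_or_pos n with rfl | hn
    · rw [map_zero]; exact qCoeff_zero_eq p f
    · rw [map_zero]; exact h n hn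
  have h1 : (f : ℍ → ℂ) = 0 :=
    (UpperHalfPlane.qExpansion_eq_zero_iff one_pos
      (SlashInvariantFormClass.periodic_comp_ofComplex f hΓ) (ModularFormClass.holo f)
      (ModularFormClass.bdd_at_infty f)).mp h0
  exact DFunLike.coe_injective h1

theorem qCoeff_actC_gen_ne (l : Nat.Primes) (hl : (l : ℕ) ≠ p) (f : CuspForm (Gamma0 p) 2) (n : ℕ) :
    ModularFormClass.qCoeff (actC p (heckeGen l) f) n =
      ModularFormClass.qCoeff f (n * l) +
        if (l : ℕ) ∣ n then (l : ℂ) * ModularFormClass.qCoeff f (n / l) else 0 := by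
  have hndvd : ¬ (l : ℕ) ∣ p := by
    intro h
    exact hl ((Nat.prime_dvd_prime_iff_eq l.2 (Fact.out : p.Prime)).mp h)
  rw [actC_heckeGen_of_not_dvd p hndvd, CuspForm.coe_heckeTLin_apply,
    ModularFormClass.qCoeff_heckeT f (CongruenceSubgroup.one_mem_strictPeriods_Gamma0 p)
      l.2.ne_zero n, ModularForm.coeffHeckeT_apply]
  norm_num

theorem qCoeff_actC_gen_self (l : Nat.Primes) (hl : (l : ℕ) = p) (f : CuspForm (Gamma0 p) 2) (n : ℕ) :
    ModularFormClass.qCoeff (actC p (heckeGen l) f) n = ModularFormClass.qCoeff f (n * p) := by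
  have hdvd : (l : ℕ) ∣ p := by rw [hl]
  rw [actC_heckeGen_of_dvd p hdvd, CuspForm.coe_heckeULin_apply,
    ModularFormClass.qCoeff_heckeU f (CongruenceSubgroup.one_mem_strictPeriods_Gamma0 p)
      l.2.ne_zero n, ModularForm.coeffHeckeU_apply, hl]

end Fermat.Agent.S16

end
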