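import Fermat.Agent.S16.Alg.Coeff
import Fermat.Agent.S16.SigmaP

/-!
# S16-R3: the lower bound from a form congruent to `c * δ` (owner: helper270)
-/

set_option autoImplicit false

noncomputable section

namespace Fermat.Agent.S16

open UpperHalfPlane ModularForm CongruenceSubgroup PowerSeries ModularCurve CuspForm
open scoped MatrixGroups ModularForm Manifold

variable (p : ℕ) [Fact p.Prime]

namespace LowerInduction

/-- the coefficients `a_k`, `k ≥ 1`, of `g` are integers congruent to `c * σ'(k)` mod `n` -/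
def Cong (n : ℕ) (c : ℤ) (g : CuspForm (Gamma0 p) 2) : Prop :=
  ∀ k, 1 ≤ k → ∃ a : ℤ, ModularFormClass.qCoeff g k = a ∧ (n : ℤ) ∣ a - c * sigP p k

theorem cong_gen (n : ℕ) (c : ℤ) (g : CuspForm (Gamma0 p) 2) (h : Cong p n c g) (l : Nat.Primes) :
    Cong p n (eis p (heckeGen l) * c) (actC p (heckeGen l) g) := by
  have hp : p.Prime := Fact.out
  intro k hk
  by_cases hl : (l : ℕ) = p
  · obtain ⟨a, ha, hd⟩ := h (k * p) (Nat.mul_pos hk hp.pos)
    refine ⟨a, by rw [qCoeff_actC_gen_self p l hl, ha], ?_⟩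
    rw [eis_heckeGen, eisensteinSystem_of_dvd (by rw [hl]), one_mul, ← sigP_mul_self p k]
    exact hd
  · have hndvd : ¬ (l : ℕ) ∣ p := fun hd => hl ((Nat.prime_dvd_prime_iff_eq l.2 hp).mp hd)
    obtain ⟨a, ha, hd⟩ := h (k * l) (Nat.mul_pos hk l.2.pos)
    have hs := sigP_hecke p l.2 hl k
    rw [eis_heckeGen, eisensteinSystem_of_not_dvd hndvd]
    by_cases hlk : (l : ℕ) ∣ k
    · have hkl : 1 ≤ k / l := Nat.div_pos (Nat.le_of_dvd hk hlk) l.2.pos
      obtain ⟨b, hb, hd'⟩ := h (k / l) hkl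
      refine ⟨a + l * b, by rw [qCoeff_actC_gen_ne p l hl, ha, hb, if_pos hlk]; push_cast; ring, ?_⟩
      rw [if_pos hlk] at hs
      have hs' : ((1 + (l : ℕ) : ℤ)) * (sigP p k : ℤ) =
          (sigP p (k * l) : ℤ) + (l : ℕ) * (sigP p (k / l) : ℤ) := by exact_mod_cast hs.symm
      have : a + (l : ℕ) * b - (1 + (l : ℕ) : ℤ) * c * (sigP p k : ℤ) =
          (a - c * sigP p (k * l)) + (l : ℕ) * (b - c * sigP p (k / l)) := by
        have : (1 + (l : ℕ) : ℤ) * c * (sigP p k : ℤ) = c * ((1 + (l : ℕ) : ℤ) * (sigP p k : ℤ)) := by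
          ring
        rw [this, hs']; ring
      rw [this]
      exact dvd_add hd (Dvd.dvd.mul_left hd' _)
    · refine ⟨a, by rw [qCoeff_actC_gen_ne p l hl, ha, if_neg hlk, add_zero], ?_⟩
      rw [if_neg hlk, add_zero] at hs
      have hs' : ((1 + (l : ℕ) : ℤ)) * (sigP p k : ℤ) = (sigP p (k * l) : ℤ) := by
        exact_mod_cast hs.symm
      have : (1 + (l : ℕ) : ℤ) * c * (sigP p k : ℤ) = c * (sigP p (k * l) : ℤ) := by
        rw [← hs']; ring
      rw [this]
      exact hd

theorem cong_actC (n : ℕ) (t : HeckeAlg) :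
    ∀ (c : ℤ) (g : CuspForm (Gamma0 p) 2), Cong p n c g → Cong p n (eis p t * c) (actC p t g) := by
  induction t using MvPolynomial.induction_on with
  | C a =>
    intro c g h k hk
    obtain ⟨b, hb, hd⟩ := h k hk
    refine ⟨a * b, ?_, ?_⟩
    · rw [actC_C, LinearMap.smul_apply, Module.End.one_apply, qCoeff_zsmul, hb]
      push_cast; ring
    · rw [eis_C]
      have : a * b - a * c * (sigP p k : ℤ) = a * (b - c * sigP p k) := by ring
      rw [this]
      exact Dvd.dvd.mul_left hd _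
  | add s t hs ht =>
    intro c g h k hk
    obtain ⟨a, ha, hd⟩ := hs c g h k hk
    obtain ⟨b, hb, hd'⟩ := ht c g h k hk
    refine ⟨a + b, ?_, ?_⟩
    · rw [actC_add, LinearMap.add_apply, qCoeff_add, ha, hb]; push_cast; ring
    · rw [map_add]
      have : a + b - (eis p s + eis p t) * c * (sigP p k : ℤ) =
          (a - eis p s * c * sigP p k) + (b - eis p t * c * sigP p k) := by ring
      rw [this]
      exact dvd_add hd hd'
  | mul_X t l ht =>
    intro c g h
    have h1 := ht _ _ (cong_gen p n c g h l)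
    have h2 : actC p (t * MvPolynomial.X l) g = actC p t (actC p (heckeGen l) g) := by
      rw [actC_mul]; rfl
    have h3 : eis p (t * MvPolynomial.X l) * c = eis p t * (eis p (heckeGen l) * c) := by
      rw [map_mul, mul_assoc]; rfl
    rw [h2, h3]
    exact h1

end LowerInduction

open LowerInduction in
theorem lb_of_form (n : ℕ) (f : CuspForm (Gamma0 p) 2) (hf : f ∈ intLattice p 2) (c : ℤ)
    (hc : IsCoprime c (n : ℤ))
    (h : ∀ k, 1 ≤ k → ∃ a : ℤ, ModularFormClass.qCoeff f k = a ∧ (n : ℤ) ∣ a - c * sigP p k)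
    (t : HeckeAlg) (ht : ∀ g ∈ intLattice p 2, actC p t g = 0) : (n : ℤ) ∣ eis p t := by
  obtain ⟨a, ha, hd⟩ := cong_actC p n t c f h 1 le_rfl
  have h0 : ModularFormClass.qCoeff (0 : CuspForm (Gamma0 p) 2) 1 = 0 := by
    have := qCoeff_zsmul p 0 f 1
    simpa using this
  rw [ht f hf, h0] at ha
  have ha0 : a = 0 := by exact_mod_cast ha.symm
  rw [ha0, sigP_one, zero_sub, dvd_neg, Nat.cast_one, mul_one] at hd
  exact hc.symm.dvd_of_dvd_mul_right hd

end Fermat.Agent.S16

end
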